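import Mathlib

/-!
# S20 long shot — the number of generators is at least the index (Vandermonde lower bound)

Skeleton-independent, Mathlib-only.  Everything is at function level (`ℍ → ℂ`, slash action of
`SL(2, ℤ)`).

Main statement `card_quot_le_card_of_gen`: let `Γ ≤ SL(2, ℤ)`, let `F j` (`j : ι`) be functions of
weights `k j`, let `f₀` be a function of weight `w₀` whose conjugates `f₀ ∣[w₀] (q.out)⁻¹`
(`q : SL(2, ℤ) ⧸ Γ`) take pairwise distinct values at some point `z₀`, and assume that every power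
`f₀ ^ b` is a combination `∑ j, a j * F j` with `SL(2, ℤ)`-invariant coefficients `a j` of weight
`b * w₀ - k j`.  Then `Nat.card (SL(2, ℤ) ⧸ Γ) ≤ Fintype.card ι`; more precisely the vectors of
conjugates `q ↦ (F j ∣[k j] (q.out)⁻¹) z₀` span `(SL(2, ℤ) ⧸ Γ) → ℂ`.
-/

set_option autoImplicit false

open UpperHalfPlane ModularForm CongruenceSubgroup Matrix.SpecialLinearGroup
open scoped MatrixGroups ModularForm Manifold

namespace Fermat.Agent.S20.H920

/-- Slash of a power by an element of `SL(2, ℤ)`. -/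
lemma h920_pow_slash (k : ℤ) (f : ℍ → ℂ) (g : SL(2, ℤ)) (b : ℕ) :
    (f ^ b) ∣[(b : ℤ) * k] g = (f ∣[k] g) ^ b := by
  induction b with
  | zero =>
    simp only [pow_zero, Nat.cast_zero, zero_mul]
    exact ModularForm.is_invariant_one g
  | succ b ih =>
    have h : ((b + 1 : ℕ) : ℤ) * k = (b : ℤ) * k + k := by push_cast; ring
    rw [pow_succ, pow_succ, ← ih, h, ModularForm.mul_slash_SL2]

/-- Slash of `a * F` when `a` is invariant. -/
lemma h920_mul_slash_of_invariant (w k : ℤ) (a F : ℍ → ℂ) (g : SL(2, ℤ))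
    (ha : a ∣[w - k] g = a) : (a * F) ∣[w] g = a * F ∣[k] g := by
  have h : w = (w - k) + k := by ring
  conv_lhs => rw [h]
  rw [ModularForm.mul_slash_SL2, ha]

/-- Powers of an injective function on a finite type span all functions. -/
lemma h920_span_pow_eq_top {Q : Type*} [Finite Q] (u : Q → ℂ) (hu : Function.Injective u) :
    Submodule.span ℂ (Set.range fun b : ℕ => (fun q : Q => u q ^ b)) = ⊤ := by
  classical
  haveI : Fintype Q := Fintype.ofFinite Q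
  rw [eq_top_iff]
  rintro φ -
  set p : Polynomial ℂ := Lagrange.interpolate Finset.univ u φ with hp
  have hφ : φ = ∑ b ∈ p.support, p.coeff b • (fun q : Q => u q ^ b) := by
    funext q
    have h1 : p.eval (u q) = φ q :=
      Lagrange.eval_interpolate_at_node φ (hu.injOn) (Finset.mem_univ q)
    rw [← h1, Polynomial.eval_eq_sum, Polynomial.sum, Finset.sum_apply]
    simp [smul_eq_mul]
  rw [hφ]
  exact Submodule.sum_mem _ fun b _ =>
    Submodule.smul_mem _ _ (Submodule.subset_span ⟨b, rfl⟩)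

variable (Γ : Subgroup SL(2, ℤ)) {ι : Type*} [Fintype ι]

/-- **Vandermonde, span form.** -/
theorem span_conj_eq_top_of_gen [Finite (SL(2, ℤ) ⧸ Γ)]
    (k : ι → ℤ) (F : ι → ℍ → ℂ) (w₀ : ℤ) (f₀ : ℍ → ℂ) (z₀ : ℍ)
    (hinj : Function.Injective fun q : SL(2, ℤ) ⧸ Γ => (f₀ ∣[w₀] (q.out)⁻¹) z₀)
    (hgen : ∀ b : ℕ, ∃ a : ι → ℍ → ℂ,
      (∀ j (g : SL(2, ℤ)), a j ∣[(b : ℤ) * w₀ - k j] g = a j) ∧ f₀ ^ b = ∑ j, a j * F j) :
    Submodule.span ℂ
      (Set.range fun j : ι => fun q : SL(2, ℤ) ⧸ Γ => (F j ∣[k j] (q.out)⁻¹) z₀) = ⊤ := by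
  rw [eq_top_iff, ← h920_span_pow_eq_top _ hinj, Submodule.span_le]
  rintro _ ⟨b, rfl⟩
  obtain ⟨a, ha, hab⟩ := hgen b
  have key : (fun q : SL(2, ℤ) ⧸ Γ => (f₀ ∣[w₀] (q.out)⁻¹) z₀ ^ b) =
      ∑ j, a j z₀ • fun q : SL(2, ℤ) ⧸ Γ => (F j ∣[k j] (q.out)⁻¹) z₀ := by
    funext q
    have h1 : (f₀ ∣[w₀] (q.out)⁻¹) ^ b = ∑ j, a j * F j ∣[k j] (q.out)⁻¹ := by
      rw [← h920_pow_slash, hab, SlashAction.sum_slash]
      exact Finset.sum_congr rfl fun j _ =>
        h920_mul_slash_of_invariant _ _ _ _ _ (ha j _)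
    have h2 := congrFun h1 z₀
    simp only [Pi.pow_apply, Finset.sum_apply, Pi.mul_apply] at h2
    rw [h2, Finset.sum_apply]
    simp [smul_eq_mul]
  change (fun q : SL(2, ℤ) ⧸ Γ => (f₀ ∣[w₀] (q.out)⁻¹) z₀ ^ b) ∈ _
  rw [key]
  exact Submodule.sum_mem _ fun j _ =>
    Submodule.smul_mem _ _ (Submodule.subset_span ⟨j, rfl⟩)

/-- **Vandermonde, cardinality form**: the number of generators is at least the index. -/
theorem card_quot_le_card_of_gen [Finite (SL(2, ℤ) ⧸ Γ)]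
    (k : ι → ℤ) (F : ι → ℍ → ℂ) (w₀ : ℤ) (f₀ : ℍ → ℂ) (z₀ : ℍ)
    (hinj : Function.Injective fun q : SL(2, ℤ) ⧸ Γ => (f₀ ∣[w₀] (q.out)⁻¹) z₀)
    (hgen : ∀ b : ℕ, ∃ a : ι → ℍ → ℂ,
      (∀ j (g : SL(2, ℤ)), a j ∣[(b : ℤ) * w₀ - k j] g = a j) ∧ f₀ ^ b = ∑ j, a j * F j) :
    Nat.card (SL(2, ℤ) ⧸ Γ) ≤ Fintype.card ι := by
  classical
  haveI : Fintype (SL(2, ℤ) ⧸ Γ) := Fintype.ofFinite _
  have h := span_conj_eq_top_of_gen Γ k F w₀ f₀ z₀ hinj hgen
  have h1 := finrank_range_le_card (R := ℂ)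
    (fun j : ι => fun q : SL(2, ℤ) ⧸ Γ => (F j ∣[k j] (q.out)⁻¹) z₀)
  rw [Set.finrank, h, finrank_top, Module.finrank_fintype_fun_eq_card] at h1
  rwa [Nat.card_eq_fintype_card]

end Fermat.Agent.S20.H920
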