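import Fermat.Agent.S20.Core
import Fermat.Agent.S20.H920.Vandermonde

/-!
# S20 long shot — `card J = Nat.card (X Γ)` for a generating family (helper20's `Core` interface)

* `one_mem_MF`, `mul_mem_MF_same`, `pow_mem_MF` : `⊕ₖ MF Γ k` is a graded ring (function level);
* `card_X_le_card_of_gen` : a family generating `⊕ₖ MF Γ k` over the level one forms has at least
  `Nat.card (X Γ)` members, as soon as there is a form with pairwise distinct conjugates (leaf F);
* `card_le_card_X_of_indep` : a family whose vectors of conjugates are linearly independent at some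
  point has at most `Nat.card (X Γ)` members;
* `card_eq_card_X` : both together (this is the field `FundSystem.card_eq`).
-/

set_option autoImplicit false

noncomputable section

namespace Fermat.Agent.S20.H920

open Fermat.Agent.S20
open UpperHalfPlane ModularForm CongruenceSubgroup MatrixGroups Filter
open scoped Manifold Topology Real

variable {Γ : Subgroup SL(2, ℤ)}

lemma one_mem_MF : (1 : ℍ → ℂ) ∈ MF Γ 0 := by
  refine ⟨mdifferentiable_const, fun γ _ => ModularForm.is_invariant_one γ, fun γ => ?_⟩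
  rw [ModularForm.is_invariant_one γ]
  exact Filter.const_boundedAtFilter _ (1 : ℂ)

lemma mul_mem_MF_same {k l : ℤ} {f g : ℍ → ℂ} (hf : f ∈ MF Γ k) (hg : g ∈ MF Γ l) :
    f * g ∈ MF Γ (k + l) := by
  obtain ⟨hf1, hf2, hf3⟩ := hf
  obtain ⟨hg1, hg2, hg3⟩ := hg
  refine ⟨hf1.mul hg1, fun γ hγ => ?_, fun γ => ?_⟩
  · rw [ModularForm.mul_slash_SL2, hf2 γ hγ, hg2 γ hγ]
  · rw [ModularForm.mul_slash_SL2]
    exact (hf3 γ).mul (hg3 γ)

lemma pow_mem_MF {k : ℤ} {f : ℍ → ℂ} (hf : f ∈ MF Γ k) (b : ℕ) :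
    f ^ b ∈ MF Γ ((b : ℤ) * k) := by
  induction b with
  | zero => simpa using (one_mem_MF (Γ := Γ))
  | succ b ih =>
    have h : ((b + 1 : ℕ) : ℤ) * k = (b : ℤ) * k + k := by push_cast; ring
    rw [pow_succ, h]
    exact mul_mem_MF_same ih hf

/-- Lower bound: a generating family has at least `Nat.card (X Γ)` members. -/
theorem card_X_le_card_of_gen [Γ.FiniteIndex] {J : Type*} [Fintype J] (wt : J → ℤ)
    (F : J → ℍ → ℂ)
    (gen : ∀ (k : ℤ) (f : ℍ → ℂ), f ∈ MF Γ k →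
      ∃ c : J → ℍ → ℂ, (∀ j, c j ∈ MF ⊤ (k - wt j)) ∧ f = ∑ j, c j * F j)
    {w₀ : ℤ} (hF : ∃ f₀ ∈ MF Γ w₀, ∃ z₀ : ℍ, Function.Injective (ev Γ w₀ z₀ f₀)) :
    Nat.card (X Γ) ≤ Fintype.card J := by
  obtain ⟨f₀, hf₀, z₀, hinj⟩ := hF
  refine card_quot_le_card_of_gen Γ wt F w₀ f₀ z₀ hinj fun b => ?_
  obtain ⟨c, hc, hfc⟩ := gen _ _ (pow_mem_MF hf₀ b)
  exact ⟨c, fun j g => (hc j).2.1 g (Subgroup.mem_top g), hfc⟩

/-- Upper bound: a pointwise independent family has at most `Nat.card (X Γ)` members. -/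
theorem card_le_card_X_of_indep [Γ.FiniteIndex] {J : Type*} [Fintype J] (wt : J → ℤ)
    (F : J → ℍ → ℂ) {τ : ℍ} (indep : LinearIndependent ℂ fun j => ev Γ (wt j) τ (F j)) :
    Fintype.card J ≤ Nat.card (X Γ) := by
  classical
  haveI : Fintype (X Γ) := Fintype.ofFinite _
  have h := indep.fintype_card_le_finrank
  rw [Module.finrank_fintype_fun_eq_card] at h
  rw [Nat.card_eq_fintype_card]
  exact h

/-- The number of generators of a fundamental system is the index. -/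
theorem card_eq_card_X [Γ.FiniteIndex] {J : Type*} [Fintype J] (wt : J → ℤ)
    (F : J → ℍ → ℂ)
    (gen : ∀ (k : ℤ) (f : ℍ → ℂ), f ∈ MF Γ k →
      ∃ c : J → ℍ → ℂ, (∀ j, c j ∈ MF ⊤ (k - wt j)) ∧ f = ∑ j, c j * F j)
    {τ : ℍ} (indep : LinearIndependent ℂ fun j => ev Γ (wt j) τ (F j))
    {w₀ : ℤ} (hF : ∃ f₀ ∈ MF Γ w₀, ∃ z₀ : ℍ, Function.Injective (ev Γ w₀ z₀ f₀)) :
    Fintype.card J = Nat.card (X Γ) :=
  le_antisymm (card_le_card_X_of_indep wt F indep) (card_X_le_card_of_gen wt F gen hF)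

end Fermat.Agent.S20.H920
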