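import Fermat.Agent.S20.Defs
import Fermat.Agent.S20.F2_helper658
import Fermat.Agent.S20.H920.CardFund

/-!
# S20 long shot — `card_eq_index` for helper860's skeleton (`IsHomBasis`)

* `index_le_card` : a homogeneous basis has at least `(Gamma0 N).index` members (unconditional:
  Vandermonde/Lagrange in the conjugates of `f₀ = Δ ∣[12] diag(N,1)`, leaf F by helper658);
* `card_le_index_of_indep` : at most `index` members if the vectors of conjugates are linearly
  independent at one point;
* `card_eq_index_of_indep` : `Fintype.card ι = (Gamma0 N).index` from `pointwise_indep` at one point.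
-/

set_option autoImplicit false

open UpperHalfPlane ModularForm CongruenceSubgroup Matrix.SpecialLinearGroup
open scoped MatrixGroups ModularForm Manifold

namespace Fermat.Agent.S20.H920

open Fermat.Agent.S20

lemma isMF_iff_mem_MF {Γ : Subgroup SL(2, ℤ)} {k : ℤ} {f : ℍ → ℂ} :
    IsMF Γ k f ↔ f ∈ MF Γ k := Iff.rfl

lemma conj_eq_ev (Γ : Subgroup SL(2, ℤ)) (k : ℤ) (f : ℍ → ℂ) (q : SL(2, ℤ) ⧸ Γ) (τ : ℍ) :
    conj Γ k f q τ = ev Γ k τ f q := rfl

variable {N : ℕ} [NeZero N] {ι : Type} [Fintype ι] {k : ι → ℤ} {F : ι → ℍ → ℂ}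

/-- Lower bound (unconditional). -/
theorem index_le_card (hB : IsHomBasis N k F) : (Gamma0 N).index ≤ Fintype.card ι := by
  rw [Subgroup.index_eq_card]
  refine card_quot_le_card_of_gen (Gamma0 N) k F 12 (F658.f0 N) (F658.z0 N)
    (F658.f0_conj_injective N) fun b => ?_
  have hpow : IsMF (Gamma0 N) ((b : ℤ) * 12) ((F658.f0 N : ℍ → ℂ) ^ b) :=
    isMF_iff_mem_MF.mpr (pow_mem_MF (isMF_iff_mem_MF.mp (F658.f0_isMF_raw N)) b)
  obtain ⟨a, ha, hfa⟩ := hB.span _ _ hpow
  exact ⟨a, fun j g => (ha j).2.1 g (Subgroup.mem_top g), hfa⟩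

/-- Upper bound from independence at one point. -/
theorem card_le_index_of_indep {τ : ℍ}
    (hind : LinearIndependent ℂ
      (fun j : ι => fun q : SL(2, ℤ) ⧸ Gamma0 N => conj (Gamma0 N) (k j) (F j) q τ)) :
    Fintype.card ι ≤ (Gamma0 N).index := by
  rw [Subgroup.index_eq_card]
  exact card_le_card_X_of_indep (Γ := Gamma0 N) k F (τ := τ) hind

/-- **`card_eq_index`**, given pointwise independence at one point. -/
theorem card_eq_index_of_indep (hB : IsHomBasis N k F) {τ : ℍ}
    (hind : LinearIndependent ℂ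
      (fun j : ι => fun q : SL(2, ℤ) ⧸ Gamma0 N => conj (Gamma0 N) (k j) (F j) q τ)) :
    Fintype.card ι = (Gamma0 N).index :=
  le_antisymm (card_le_index_of_indep hind) (index_le_card hB)

end Fermat.Agent.S20.H920
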